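/-
S26 / block F, node F2 (sub-architect helper68).  SKELETON of `exists_flat_local_hom`, Mathlib only.

ROUTE (no differentials): `O` noetherian local `K`-algebra, formally smooth over `K`, residue field
`K`.  Choose `t_1 … t_g ∈ 𝔪` lifting a basis of `𝔪/𝔪²`, `π : P = K[X_1 … X_g] → O`, `X_i ↦ t_i`,
`I = (X_1 … X_g)`.  Then `P/I^n → O/𝔪^n` is bijective for all `n`:
* surjective (leaf A) because `P → O/𝔪` is onto and `I O = 𝔪`;
* injective (leaf B): lift `O → O/𝔪^n` along the surjection `P/I^n → O/𝔪^n` (nilpotent kernel,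
  formal smoothness) to `σ : O → P/I^n`; `σ ∘ π ≡ id` modulo `I²` (leaf E: the kernel is inside
  `I²`), such an endomorphism is injective.
Hence `Ô ≅ P̂ = K[[X]]` (leaf C) and `O → Ô` is flat and local (Mathlib).
Every leaf is proved VERBATIM in `Fermat/Agent/S26/F/FlatMap/<Name>.lean`, namespace
`Fermat.Agent.S26.F.FlatMap`.
-/
import Mathlib

set_option autoImplicit false

universe u

namespace Fermat.Agent.S26.F.FlatMap.Skel

open IsLocalRing

/-! ### Leaf A : `FlatMap/Surj.lean` -/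

/-- A0.  (`𝔪^k = (I^k).map π = span π(I^k)`, `Submodule.span_induction`: `y = ∑ o_j π(a_j)`,
`o_j = π(c_j) + m_j`, `h = ∑ c_j a_j`.) -/
theorem exists_mem_pow_sub_mem_pow_succ {P O : Type*} [CommRing P] [CommRing O] (π : P →+* O)
    (I : Ideal P) (𝔪 : Ideal O) (hmap : I.map π = 𝔪) (hsurj : ∀ x : O, ∃ f : P, x - π f ∈ 𝔪) (k : ℕ)
    (y : O) (hy : y ∈ 𝔪 ^ k) : ∃ h ∈ I ^ k, y - π h ∈ 𝔪 ^ (k + 1) := sorry

/-- A. `P → O/𝔪^n` is onto.  (induction on `n`, A0.) -/
theorem exists_sub_mem_pow {P O : Type*} [CommRing P] [CommRing O] (π : P →+* O) (I : Ideal P)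
    (𝔪 : Ideal O) (hmap : I.map π = 𝔪) (hsurj : ∀ x : O, ∃ f : P, x - π f ∈ 𝔪) (n : ℕ) (x : O) :
    ∃ f : P, x - π f ∈ 𝔪 ^ n := sorry

/-! ### Leaf B : `FlatMap/Inj.lean` -/

/-- B1. A ring homomorphism `θ : P → B` which agrees with the surjection `q` modulo `J²`,
`J = q(I) B`, agrees with `q` on `I^k` modulo `J^(k+1)`. -/
theorem sub_mem_pow_succ {P B : Type*} [CommRing P] [CommRing B] (q θ : P →+* B) (I : Ideal P)
    (h : ∀ f, θ f - q f ∈ (I.map q) ^ 2) (k : ℕ) (f : P) (hf : f ∈ I ^ k) :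
    θ f - q f ∈ (I.map q) ^ (k + 1) := sorry

/-- B2. -/
theorem mem_pow_of_map_mem_pow {K P O : Type*} [CommRing K] [CommRing P] [CommRing O] [Algebra K P]
    [Algebra K O] [Algebra.FormallySmooth K O] (π : P →ₐ[K] O) (I : Ideal P) (𝔪 : Ideal O)
    (hmap : I.map π = 𝔪) (hsurj : ∀ x : O, ∃ f : P, x - π f ∈ 𝔪)
    (h2 : ∀ f : P, π f ∈ 𝔪 ^ 2 → f ∈ I ^ 2) (n : ℕ) (f : P) (hf : π f ∈ 𝔪 ^ n) : f ∈ I ^ n := sorry

/-! ### Leaf C : `UFD/CompletionIso.lean` (task 3083 of block UFD, helper159) -/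

theorem nonempty_adicCompletion_ringEquiv (P R : Type*) [CommRing P] [CommRing R] (φ : P →+* R)
    (I : Ideal P) (J : Ideal R) (hIJ : ∀ k, I ^ k ≤ (J ^ k).comap φ)
    (h : ∀ k, Function.Bijective (Ideal.quotientMap (J ^ k) φ (hIJ k))) :
    Nonempty (AdicCompletion I P ≃+* AdicCompletion J R) := sorry

/-! ### Leaf D : `FlatMap/Coord.lean` -/

/-- lifts of a basis of the cotangent space. -/
theorem exists_coords {K O : Type*} [Field K] [CommRing O] [IsLocalRing O] [IsNoetherianRing O]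
    [Algebra K O] :
    ∃ (g : ℕ) (t : Fin g → O), Ideal.span (Set.range t) = maximalIdeal O ∧
      ∀ b : Fin g → K, ∑ i, b i • t i ∈ maximalIdeal O ^ 2 → b = 0 := sorry

/-! ### Leaf E : `FlatMap/Deg2.lean` -/

theorem mem_sq_of_aeval_mem_sq {K O : Type*} [Field K] [CommRing O] [IsLocalRing O] [Algebra K O]
    {g : ℕ} (t : Fin g → O) (ht : ∀ i, t i ∈ maximalIdeal O)
    (hind : ∀ b : Fin g → K, ∑ i, b i • t i ∈ maximalIdeal O ^ 2 → b = 0)
    (f : MvPolynomial (Fin g) K) (hf : MvPolynomial.aeval t f ∈ maximalIdeal O ^ 2) :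
    f ∈ MvPolynomial.idealOfVars (Fin g) K ^ 2 := sorry

/-! ### Leaf F : `FlatMap/LocalCase.lean` (assembly) -/

theorem exists_flat_local_hom_of_local {K O : Type*} [Field K] [CommRing O] [IsLocalRing O]
    [IsNoetherianRing O] [Algebra K O] [Algebra.FormallySmooth K O]
    (hres : Function.Surjective (algebraMap K (ResidueField O))) :
    ∃ (g : ℕ) (φ : O →+* MvPowerSeries (Fin g) K), φ.Flat ∧ IsLocalHom φ := by
  obtain ⟨g, t, hspan, hind⟩ := exists_coords (K := K) (O := O)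
  have ht : ∀ i, t i ∈ maximalIdeal O := fun i => by
    rw [← hspan]; exact Ideal.subset_span ⟨i, rfl⟩
  let π : MvPolynomial (Fin g) K →ₐ[K] O := MvPolynomial.aeval t
  have hmap : (MvPolynomial.idealOfVars (Fin g) K).map π = maximalIdeal O := by
    rw [Ideal.map_span, ← Set.range_comp, ← hspan]
    congr 2
    funext i
    exact MvPolynomial.aeval_X t i
  have hsurj : ∀ x : O, ∃ f : MvPolynomial (Fin g) K, x - π f ∈ maximalIdeal O := by
    intro x
    obtain ⟨c, hc⟩ := hres (residue O x)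
    refine ⟨MvPolynomial.C c, ?_⟩
    rw [← residue_eq_zero_iff, map_sub, ← hc, sub_eq_zero, MvPolynomial.aeval_C]
    rfl
  have hIJ : ∀ k, MvPolynomial.idealOfVars (Fin g) K ^ k ≤
      (maximalIdeal O ^ k).comap (π : MvPolynomial (Fin g) K →+* O) := by
    intro k
    rw [← Ideal.map_le_iff_le_comap, Ideal.map_pow]
    exact (Ideal.pow_right_mono hmap.le k)
  have hbij : ∀ k, Function.Bijective (Ideal.quotientMap (maximalIdeal O ^ k)
      (π : MvPolynomial (Fin g) K →+* O) (hIJ k)) := by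
    intro k
    constructor
    · rw [injective_iff_map_eq_zero]
      intro a ha
      obtain ⟨f, rfl⟩ := Ideal.Quotient.mk_surjective a
      rw [Ideal.quotientMap_mk, Ideal.Quotient.eq_zero_iff_mem] at ha
      rw [Ideal.Quotient.eq_zero_iff_mem]
      exact mem_pow_of_map_mem_pow π _ _ hmap hsurj (mem_sq_of_aeval_mem_sq t ht hind) k f ha
    · intro y
      obtain ⟨x, rfl⟩ := Ideal.Quotient.mk_surjective y
      obtain ⟨f, hf⟩ := exists_sub_mem_pow (π : MvPolynomial (Fin g) K →+* O) _ _ hmap hsurj k x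
      refine ⟨Ideal.Quotient.mk _ f, ?_⟩
      rw [Ideal.quotientMap_mk]
      exact ((Ideal.Quotient.mk_eq_mk_iff_sub_mem _ _).2 hf).symm
  obtain ⟨e⟩ := nonempty_adicCompletion_ringEquiv _ _ (π : MvPolynomial (Fin g) K →+* O) _ _ hIJ hbij
  let e' : AdicCompletion (maximalIdeal O) O ≃+* MvPowerSeries (Fin g) K :=
    e.symm.trans (MvPowerSeries.toAdicCompletionAlgEquiv (Fin g) K).symm.toRingEquiv
  refine ⟨g, (e' : AdicCompletion (maximalIdeal O) O →+* MvPowerSeries (Fin g) K).comp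
    (algebraMap O (AdicCompletion (maximalIdeal O) O)), ?_, ?_⟩
  · exact RingHom.Flat.comp (RingHom.flat_algebraMap_iff.2 inferInstance)
      (RingHom.Flat.of_bijective e'.bijective)
  · exact RingHom.isLocalHom_comp _ _

/-! ### Leaf G : `FlatMap/Residue.lean` -/

theorem surjective_algebraMap_residueField {K S : Type*} [Field K] [CommRing S] [Algebra K S]
    (𝔪 : Ideal S) [𝔪.IsMaximal] (h𝔪 : Function.Surjective (algebraMap K (S ⧸ 𝔪))) :
    Function.Surjective (algebraMap K (ResidueField (Localization.AtPrime 𝔪))) := sorry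

/-! ### Top : `F/FlatMap.lean` -/

theorem exists_flat_local_hom {K S : Type u} [Field K] [CommRing S] [Algebra K S]
    [Algebra.Smooth K S] (𝔪 : Ideal S) [𝔪.IsMaximal]
    (h𝔪 : Function.Bijective (algebraMap K (S ⧸ 𝔪))) :
    ∃ (g : ℕ) (φ : Localization.AtPrime 𝔪 →+* MvPowerSeries (Fin g) K),
      φ.Flat ∧ IsLocalHom φ := by
  have : IsNoetherianRing S := Algebra.FiniteType.isNoetherianRing K S
  have : IsNoetherianRing (Localization.AtPrime 𝔪) :=
    IsLocalization.isNoetherianRing 𝔪.primeCompl _ inferInstance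
  exact exists_flat_local_hom_of_local (surjective_algebraMap_residueField 𝔪 h𝔪.2)

end Fermat.Agent.S26.F.FlatMap.Skel
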